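import Fermat.Agent.Petersson.Hecke
import Fermat.Prelude.Def_CuspForm_HeckeAlgebra

/-!
The anemic Hecke algebra is reduced, and acts diagonalizably.
-/

set_option autoImplicit false

open MeasureTheory UpperHalfPlane Matrix.SpecialLinearGroup ModularForm
open scoped ENNReal Pointwise MatrixGroups ModularForm

namespace Fermat.Agent.Petersson

section

variable {N : ℕ} [NeZero N] {k : ℤ}

/-- The (normalised) Petersson product on `S_k(Γ₀(N))`, conjugate-linear on the left. -/
noncomputable def petN (f g : CuspForm (CongruenceSubgroup.Gamma0 N) k) : ℂ :=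
  pp ((CongruenceSubgroup.Gamma0 N).map (mapGL ℝ)) k f g

lemma isGood_coe (f : CuspForm (CongruenceSubgroup.Gamma0 N) k) : IsGood k (f : ℍ → ℂ) :=
  isGood_cuspForm f

lemma inv_coe (f : CuspForm (CongruenceSubgroup.Gamma0 N) k) : Inv N k (f : ℍ → ℂ) :=
  fun γ hγ => SlashInvariantFormClass.slash_action_eq f _ ⟨γ, hγ, rfl⟩

lemma petersson_inv_coe (f g : CuspForm (CongruenceSubgroup.Gamma0 N) k) :
    ∀ h ∈ ((CongruenceSubgroup.Gamma0 N).map (mapGL ℝ) : Subgroup (GL (Fin 2) ℝ)), ∀ τ,
      petersson k f g (h • τ) = petersson k f g τ :=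
  petersson_inv_of_inv (inv_coe f) (inv_coe g)

lemma petN_add_left (f₁ f₂ g : CuspForm (CongruenceSubgroup.Gamma0 N) k) :
    petN (f₁ + f₂) g = petN f₁ g + petN f₂ g := by
  unfold petN
  rw [CuspForm.coe_add]
  exact pp_add_left (hasFinWeight_map _) (isGood_coe f₁) (isGood_coe f₂) (isGood_coe g)

lemma petN_add_right (f g₁ g₂ : CuspForm (CongruenceSubgroup.Gamma0 N) k) :
    petN f (g₁ + g₂) = petN f g₁ + petN f g₂ := by
  unfold petN
  rw [CuspForm.coe_add]
  exact pp_add_right (hasFinWeight_map _) (isGood_coe f) (isGood_coe g₁) (isGood_coe g₂)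

lemma petN_smul_left (c : ℂ) (f g : CuspForm (CongruenceSubgroup.Gamma0 N) k) :
    petN (c • f) g = (starRingEnd ℂ c) * petN f g := by
  unfold petN
  rw [CuspForm.IsGLPos.coe_smul]
  exact pp_smul_left (hasFinWeight_map _) c f g

lemma petN_smul_right (c : ℂ) (f g : CuspForm (CongruenceSubgroup.Gamma0 N) k) :
    petN f (c • g) = c * petN f g := by
  unfold petN
  rw [CuspForm.IsGLPos.coe_smul]
  exact pp_smul_right (hasFinWeight_map _) c f g

lemma petN_symm (f g : CuspForm (CongruenceSubgroup.Gamma0 N) k) :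
    petN g f = starRingEnd ℂ (petN f g) :=
  pp_symm (hasFinWeight_map _) _ _

lemma petN_zero_left (g : CuspForm (CongruenceSubgroup.Gamma0 N) k) : petN 0 g = 0 := by
  have := petN_smul_left 0 0 g
  simpa using this

lemma petN_zero_right (f : CuspForm (CongruenceSubgroup.Gamma0 N) k) : petN f 0 = 0 := by
  have := petN_smul_right 0 f 0
  simpa using this

lemma petN_self_nonneg (f : CuspForm (CongruenceSubgroup.Gamma0 N) k) :
    ∃ r : ℝ, 0 ≤ r ∧ petN f f = r :=
  pp_self_nonneg (hasFinWeight_map _) _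

lemma eq_zero_of_petN_self {f : CuspForm (CongruenceSubgroup.Gamma0 N) k} (h : petN f f = 0) :
    f = 0 := by
  have := eq_zero_of_pp_self (hasFinWeight_map _) (isGood_coe f) (petersson_inv_coe f f) h
  exact DFunLike.coe_injective this

/-- `T_ℓ` is self-adjoint for `ℓ ∤ N`. -/
theorem petN_heckeTLin {ℓ : ℕ} (hℓ : ℓ.Prime) (hℓN : ¬ ℓ ∣ N)
    (f g : CuspForm (CongruenceSubgroup.Gamma0 N) k) :
    petN (CuspForm.heckeTLin k hℓ hℓN f) g = petN f (CuspForm.heckeTLin k hℓ hℓN g) := by
  have : NeZero (ℓ * N) := ⟨mul_ne_zero hℓ.ne_zero (NeZero.ne N)⟩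
  have hcop : Nat.Coprime ℓ N := (Nat.Prime.coprime_iff_not_dvd hℓ).2 hℓN
  have hle : ((CongruenceSubgroup.Gamma (ℓ * N)).map (mapGL ℝ) : Subgroup (GL (Fin 2) ℝ)) ≤
      (CongruenceSubgroup.Gamma0 N).map (mapGL ℝ) :=
    Subgroup.map_mono (gamma_le_gamma0 _ (Nat.dvd_mul_left N ℓ))
  have key : ∀ f g : CuspForm (CongruenceSubgroup.Gamma0 N) k,
      petN f g = pp ((CongruenceSubgroup.Gamma (ℓ * N)).map (mapGL ℝ)) k f g := by
    intro f g
    unfold petN pp
    exact (gmean_eq_of_le hle (hasFinWeight_map _) (hasFinWeight_map _)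
      ((isGood_coe f).measurable (isGood_coe g)) (petersson_inv_coe f g)).symm
  rw [key, key]
  exact pp_heckeT hℓ.ne_zero hcop (isGood_coe f) (isGood_coe g) (inv_coe f) (inv_coe g)

variable {S : Set ℕ}

/-- Every element of the anemic Hecke algebra is self-adjoint. -/
theorem petN_heckeAlgebra (hS : ∀ q : ℕ, q.Prime → q ∣ N → q ∈ S)
    {t : Module.End ℂ (CuspForm (CongruenceSubgroup.Gamma0 N) k)}
    (ht : t ∈ CuspForm.heckeAlgebra N k S) (f g : CuspForm (CongruenceSubgroup.Gamma0 N) k) :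
    petN (t f) g = petN f (t g) := by
  revert f g
  induction ht using Algebra.adjoin_induction with
  | mem x hx =>
    intro f g
    rcases hx with ⟨ℓ, hℓ, hℓN, -, rfl⟩ | ⟨q, hqN, hq, hqS, rfl⟩
    · exact petN_heckeTLin hℓ hℓN f g
    · exact absurd (hS q hq hqN) hqS
  | algebraMap r =>
    intro f g
    have h1 : ∀ f : CuspForm (CongruenceSubgroup.Gamma0 N) k,
        (algebraMap ℤ (Module.End ℂ (CuspForm (CongruenceSubgroup.Gamma0 N) k)) r) f =
          (r : ℂ) • f := by
      intro f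
      rw [Int.cast_smul_eq_zsmul]
      rfl
    rw [h1, h1, petN_smul_left, petN_smul_right]
    simp
  | add x y hx hy ihx ihy =>
    intro f g
    rw [LinearMap.add_apply, LinearMap.add_apply, petN_add_left, petN_add_right, ihx, ihy]
  | mul x y hx hy ihx ihy =>
    intro f g
    have hcomm : x * y = y * x := by
      have := mul_comm (⟨x, hx⟩ : CuspForm.heckeAlgebra N k S) ⟨y, hy⟩
      exact congrArg Subtype.val this
    rw [Module.End.mul_apply, ihx, ihy, hcomm, Module.End.mul_apply]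

theorem isReduced_heckeAlgebra (hS : ∀ q : ℕ, q.Prime → q ∣ N → q ∈ S) :
    IsReduced (CuspForm.heckeAlgebra N k S) := by
  rw [isReduced_iff_pow_one_lt 2 one_lt_two]
  rintro ⟨t, ht⟩ h
  have h2 : t * t = 0 := by
    have := congrArg Subtype.val h
    rwa [pow_two] at this
  apply Subtype.ext
  refine LinearMap.ext fun f => ?_
  refine eq_zero_of_petN_self ?_
  show petN (t f) (t f) = 0
  rw [petN_heckeAlgebra hS ht, ← Module.End.mul_apply, h2]
  exact petN_zero_right f

/-- eigenvalues are real -/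
lemma eigenvalue_real {t : Module.End ℂ (CuspForm (CongruenceSubgroup.Gamma0 N) k)}
    (ht : ∀ f g, petN (t f) g = petN f (t g)) {μ : ℂ}
    {g : CuspForm (CongruenceSubgroup.Gamma0 N) k} (hg : g ≠ 0) (h : t g = μ • g) :
    starRingEnd ℂ μ = μ := by
  have h1 := ht g g
  rw [h, petN_smul_left, petN_smul_right] at h1
  exact mul_right_cancel₀ (fun h0 => hg (eq_zero_of_petN_self h0)) h1

lemma eq_zero_of_sq {t : Module.End ℂ (CuspForm (CongruenceSubgroup.Gamma0 N) k)}
    (ht : ∀ f g, petN (t f) g = petN f (t g)) {μ : ℂ}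
    {f : CuspForm (CongruenceSubgroup.Gamma0 N) k}
    (h : (t - algebraMap ℂ _ μ) ((t - algebraMap ℂ _ μ) f) = 0) :
    (t - algebraMap ℂ _ μ) f = 0 := by
  by_contra hne
  set g := (t - algebraMap ℂ _ μ) f with hg
  have h1 : t g = μ • g := by
    have : t g - μ • g = 0 := h
    exact sub_eq_zero.1 this
  have hμ := eigenvalue_real ht hne h1
  refine hne (eq_zero_of_petN_self ?_)
  have h2 : petN g g = petN f ((t - algebraMap ℂ _ μ) g) := by
    conv_lhs => rw [hg]
    have e1 : (t - algebraMap ℂ _ μ) f = t f + (-μ) • f := by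
      rw [LinearMap.sub_apply, _root_.neg_smul, ← sub_eq_add_neg]; rfl
    have e2 : (t - algebraMap ℂ _ μ) g = t g + (-μ) • g := by
      rw [LinearMap.sub_apply, _root_.neg_smul, ← sub_eq_add_neg]; rfl
    rw [← hg] at e1
    rw [e2, petN_add_right, petN_smul_right, ← ht f g]
    have e3 : petN ((t - algebraMap ℂ _ μ) f) ((t - algebraMap ℂ _ μ) f) =
        petN (t f + (-μ) • f) g := by rw [← hg, e1]
    rw [e3, petN_add_left, petN_smul_left, map_neg, hμ]
  rw [h2, h, petN_zero_right]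

end

end Fermat.Agent.Petersson
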