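import Fermat.Agent.Petersson.Weight

/-!
The group `SL(2, ℤ)` has a weight of finite mass for its action on the upper half plane.
-/

set_option autoImplicit false

open MeasureTheory
open scoped ENNReal Pointwise

namespace Fermat.Agent.Petersson

section Abstract

variable {G X : Type*} [Group G] [MulAction G X] [MeasurableSpace X]
  {μ : Measure X} [MeasurableConstSMul G X] [SMulInvariantMeasure G X μ]

lemma hasFinWeight_of_domain {H : Subgroup G} [Countable H] (hμ : μ ≠ 0) {D : Set X}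
    (hD : MeasurableSet D) (hDfin : μ D ≠ ∞)
    (hne : ∀ x, ∃ h : H, (h : G) • x ∈ D) (hfin : ∀ x, {h : H | (h : G) • x ∈ D}.Finite) :
    HasFinWeight μ H := by
  classical
  set φ : X → ℝ≥0∞ := D.indicator 1 with hφ
  have hφm : Measurable φ := measurable_const.indicator hD
  set n : X → ℝ≥0∞ := fun x => ∑' h : H, φ ((h : G) • x) with hn
  have hnm : Measurable n := by
    refine Measurable.ennreal_tsum fun h => hφm.comp (measurable_const_smul _)
  have hn1 : ∀ x, 1 ≤ n x := by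
    intro x
    obtain ⟨h, hh⟩ := hne x
    calc (1 : ℝ≥0∞) = φ ((h : G) • x) := by simp [hφ, hh]
      _ ≤ n x := ENNReal.le_tsum h
  have hnt : ∀ x, n x ≠ ∞ := by
    intro x
    have : n x = ∑ h ∈ (hfin x).toFinset, φ ((h : G) • x) := by
      refine tsum_eq_sum fun h hh => ?_
      simp only [Set.Finite.mem_toFinset, Set.mem_ofPred_eq] at hh
      simp [hφ, hh]
    rw [this]
    refine (ENNReal.sum_lt_top.2 fun h _ => ?_).ne
    by_cases hh : (h : G) • x ∈ D <;> simp [hφ, hh]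
  have hninv : ∀ (k : H) x, n ((k : G) • x) = n x := by
    intro k x
    simp only [hn]
    rw [← (Equiv.mulRight k).tsum_eq (fun h : H => φ ((h : G) • x))]
    refine tsum_congr fun h => ?_
    simp [mul_smul]
  set w : X → ℝ≥0∞ := fun x => φ x * (n x)⁻¹ with hw
  have hwm : Measurable w := hφm.mul hnm.inv
  have hww : IsWeight H w := by
    refine ⟨hwm, fun x => ?_⟩
    simp only [hw, hninv]
    rw [ENNReal.tsum_mul_right]
    exact ENNReal.mul_inv_cancel (fun h => by have h' : n x = 0 := h; have := hn1 x; rw [h'] at this; simp at this) (hnt x)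
  refine ⟨w, hww, ?_, ?_⟩
  · intro h0
    rw [lintegral_eq_zero_iff hwm] at h0
    have h1 : ∀ h : H, ∀ᵐ x ∂μ, w ((h : G) • x) = 0 := by
      intro h
      exact (measurePreserving_smul (h : G) μ).quasiMeasurePreserving.tendsto_ae h0
    rw [← ae_all_iff] at h1
    have h2 : ∀ᵐ x ∂μ, False := by
      filter_upwards [h1] with x hx
      have := hww.tsum_eq_one x
      simp [hx] at this
    rw [ae_iff] at h2
    simp only [not_false_eq_true, Set.ofPred_true] at h2
    exact hμ (Measure.measure_univ_eq_zero.1 h2)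
  · refine (lt_of_le_of_lt (lintegral_mono (g := φ) fun x => ?_) ?_).ne
    · calc w x = φ x * (n x)⁻¹ := rfl
        _ ≤ φ x * 1 := by gcongr; exact ENNReal.inv_le_one.2 (hn1 x)
        _ = φ x := mul_one _
    · rw [hφ, lintegral_indicator_one hD]
      exact hDfin.lt_top

end Abstract

section SL2Z

open UpperHalfPlane Matrix.SpecialLinearGroup
open scoped MatrixGroups Modular

lemma finite_smul_mem_fd (τ : ℍ) : {g : SL(2, ℤ) | g • τ ∈ 𝒟}.Finite := by
  classical
  obtain ⟨g₀, hg₀⟩ := ModularGroup.exists_smul_mem_fd τ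
  open ModularGroup in
  let L : Finset SL(2, ℤ) := {1, -1, T, -T, T⁻¹, -T⁻¹, S, -S, T * S, -(T * S), T⁻¹ * S * T⁻¹,
    -(T⁻¹ * S * T⁻¹), S * T⁻¹, -(S * T⁻¹), S * T, -(S * T), T * S * T, -(T * S * T), T⁻¹ * S,
    -(T⁻¹ * S)}
  refine Set.Finite.subset (L.finite_toSet.image (fun g => g * g₀)) ?_
  intro g hg
  refine ⟨g * g₀⁻¹, ?_, by simp⟩
  have h1 : (g * g₀⁻¹) • (g₀ • τ) ∈ 𝒟 := by
    rw [mul_smul, inv_smul_smul]; exact hg
  have := ModularGroup.cases_of_mem_fd_smul_mem_fd hg₀ h1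
  simp only [L, Finset.coe_insert, Finset.coe_singleton, Set.mem_insert_iff,
    Set.mem_singleton_iff]
  generalize g * g₀⁻¹ = h at this
  rcases this with (h | h) | ⟨(h | h), -⟩ | ⟨(h | h), -⟩ | ⟨(h | h), -⟩ | ⟨(h | h), -⟩ |
    ⟨(h | h), -⟩ | ⟨(h | h), -⟩ | ⟨(h | h), -⟩ | ⟨(h | h), -⟩ | ⟨(h | h), -⟩ <;>
  simp only [h, true_or, or_true]

lemma volume_fd_lt_top : (volume : Measure ℍ) 𝒟 < ∞ := by
  rw [UpperHalfPlane.volume_eq_lintegral]
  have hsub : ((↑) '' 𝒟 : Set ℂ) ⊆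
      Complex.measurableEquivRealProd ⁻¹' (Set.Icc (-1) 1 ×ˢ Set.Ioi (1/4 : ℝ)) := by
    rintro _ ⟨τ, hτ, rfl⟩
    have h1 := ModularGroup.three_le_four_mul_im_sq_of_mem_fd hτ
    have h2 := τ.im_pos
    have h3 : |τ.re| ≤ 1/2 := hτ.2
    rw [abs_le] at h3
    simp only [Set.mem_preimage, Complex.measurableEquivRealProd_apply, Set.mem_prod,
      Set.mem_Icc, Set.mem_Ioi]
    refine ⟨⟨?_, ?_⟩, ?_⟩
    · show -1 ≤ τ.re
      linarith [h3.1]
    · show τ.re ≤ 1
      linarith [h3.2]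
    · show 1/4 < τ.im
      nlinarith
  refine lt_of_le_of_lt (lintegral_mono_set hsub) ?_
  have h1 := (Complex.volume_preserving_equiv_real_prod).setLIntegral_comp_preimage
    (s := (Set.Icc (-1) 1 ×ˢ Set.Ioi (1/4 : ℝ))) (measurableSet_Icc.prod measurableSet_Ioi)
    (f := fun p : ℝ × ℝ => ((((1 / ‖p.2‖₊) ^ 2 : NNReal)) : ℝ≥0∞)) (by fun_prop)
  have h2 : ∫⁻ z : ℂ in Complex.measurableEquivRealProd ⁻¹' (Set.Icc (-1) 1 ×ˢ Set.Ioi (1/4 : ℝ)),
      (((1 / ‖z.im‖₊) ^ 2 : NNReal) : ℝ≥0∞) =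
      ∫⁻ p : ℝ × ℝ in (Set.Icc (-1) 1 ×ˢ Set.Ioi (1/4 : ℝ)),
        ((((1 / ‖p.2‖₊) ^ 2 : NNReal)) : ℝ≥0∞) := by
    rw [← h1]
    rfl
  rw [h2]
  rw [Measure.volume_eq_prod, ← Measure.prod_restrict, lintegral_prod _ (by fun_prop)]
  simp only [lintegral_const]
  refine ENNReal.mul_lt_top ?_ ?_
  · have h3 : IntegrableOn (fun y : ℝ => y ^ (-2 : ℝ)) (Set.Ioi (1/4)) :=
      integrableOn_Ioi_rpow_of_lt (by norm_num) (by norm_num)
    have h4 := h3.2
    unfold HasFiniteIntegral at h4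
    refine lt_of_le_of_lt (setLIntegral_mono' measurableSet_Ioi fun y hy => ?_) h4
    have hy0 : (0 : ℝ) < y := lt_trans (by norm_num) hy
    rw [enorm_eq_nnnorm]
    norm_cast
    rw [← NNReal.coe_le_coe]
    simp only [one_div, inv_pow, NNReal.coe_inv, NNReal.coe_pow, coe_nnnorm]
    rw [Real.norm_of_nonneg hy0.le, Real.norm_of_nonneg (by positivity), zpow_negSucc]
  · simp

instance countable_SL : Countable (𝒮ℒ : Subgroup (GL (Fin 2) ℝ)) := by
  have : Countable (Matrix (Fin 2) (Fin 2) ℤ) := inferInstanceAs (Countable (Fin 2 → Fin 2 → ℤ))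
  have : Countable SL(2, ℤ) := inferInstanceAs (Countable {A : Matrix (Fin 2) (Fin 2) ℤ // A.det = 1})
  exact (MonoidHom.rangeRestrict_surjective (mapGL ℝ : SL(2, ℤ) →* GL (Fin 2) ℝ)).countable

instance isOpenPosMeasure_volume : (volume : Measure ℍ).IsOpenPosMeasure := by
  refine ⟨fun U hU hne h0 => ?_⟩
  rw [UpperHalfPlane.volume_eq_lintegral] at h0
  have hUo : IsOpen ((↑) '' U : Set ℂ) := isOpenEmbedding_coe.isOpenMap U hU
  rw [setLIntegral_eq_zero_iff hUo.measurableSet (by fun_prop)] at h0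
  have h1 : volume ((↑) '' U : Set ℂ) = 0 := by
    rw [measure_eq_zero_iff_ae_notMem]
    filter_upwards [h0] with z hz hzU
    have := hz hzU
    obtain ⟨τ, hτ, rfl⟩ := hzU
    have h2 := τ.im_ne_zero
    simp at this
    exact h2 this
  exact (hUo.measure_pos volume (hne.image _)).ne' h1

theorem hasFinWeight_SL :
    HasFinWeight (volume : Measure ℍ) (𝒮ℒ : Subgroup (GL (Fin 2) ℝ)) := by
  refine hasFinWeight_of_domain (D := 𝒟) ?_ ModularGroup.isClosed_fd.measurableSet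
    volume_fd_lt_top.ne ?_ ?_
  · intro h
    have h1 : (volume : Measure ℍ) Set.univ = 0 := by rw [h]; simp
    exact (isOpen_univ.measure_pos (volume : Measure ℍ) ⟨UpperHalfPlane.I, trivial⟩).ne' h1
  · intro τ
    obtain ⟨g, hg⟩ := ModularGroup.exists_smul_mem_fd τ
    exact ⟨⟨mapGL ℝ g, ⟨g, rfl⟩⟩, hg⟩
  · intro τ
    refine ((finite_smul_mem_fd τ).image
      (MonoidHom.rangeRestrict (mapGL ℝ : SL(2, ℤ) →* GL (Fin 2) ℝ))).subset ?_
    rintro ⟨_, g, rfl⟩ hg
    exact ⟨g, hg, rfl⟩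

end SL2Z

end Fermat.Agent.Petersson
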