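import Fermat.Agent.Petersson.Domain
import Fermat.Prelude.Def_ModularForm_HeckeOperatorForms

/-!
The Petersson product on `S_k(Γ₀(N))` and self-adjointness of `T_ℓ`, `ℓ ∤ N`.
-/

set_option autoImplicit false

open MeasureTheory UpperHalfPlane Matrix.SpecialLinearGroup ModularForm
open scoped ENNReal Pointwise MatrixGroups ModularForm

namespace Fermat.Agent.Petersson

/-! ### groups -/

instance countable_map_SL (Γ : Subgroup SL(2, ℤ)) :
    Countable (Γ.map (mapGL ℝ) : Subgroup (GL (Fin 2) ℝ)) := by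
  have hle : (Γ.map (mapGL ℝ) : Subgroup (GL (Fin 2) ℝ)) ≤ 𝒮ℒ := by
    rintro _ ⟨g, -, rfl⟩
    exact ⟨g, rfl⟩
  exact (Subgroup.inclusion_injective hle).countable

lemma hasFinWeight_map (Γ : Subgroup SL(2, ℤ)) [Γ.FiniteIndex] :
    HasFinWeight (volume : Measure ℍ) (Γ.map (mapGL ℝ) : Subgroup (GL (Fin 2) ℝ)) := by
  refine HasFinWeight.of_le (H := 𝒮ℒ) ?_ ?_ hasFinWeight_SL
  · rintro _ ⟨g, -, rfl⟩
    exact ⟨g, rfl⟩
  · exact (Subgroup.IsArithmetic.is_commensurable (𝒢 := Γ.map (mapGL ℝ))).1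

/-! ### Petersson integrand -/

lemma petersson_slash_SL' (k : ℤ) (f f' : ℍ → ℂ) (g : SL(2, ℤ)) (τ : ℍ) :
    petersson k (f ∣[k] (mapGL ℝ g)) (f' ∣[k] (mapGL ℝ g)) τ =
      petersson k f f' ((mapGL ℝ g) • τ) :=
  petersson_slash_SL k f f' g τ

lemma σ_of_pos {g : GL (Fin 2) ℝ} (hg : 0 < g.det.val) : σ g = .refl ℝ ℂ := by
  rw [σ, if_pos hg]

lemma petersson_slash_pos (k : ℤ) (f f' : ℍ → ℂ) (g : GL (Fin 2) ℝ) (hg : 0 < g.det.val)
    (τ : ℍ) :
    petersson k (f ∣[k] g) (f' ∣[k] g) τ =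
      ((g.det.val : ℝ) : ℂ) ^ (k - 2) * petersson k f f' (g • τ) := by
  rw [petersson_slash, abs_of_pos hg, σ_of_pos hg]
  rfl

/-- norm bound for the Petersson integrand. -/
lemma norm_petersson_le (k : ℤ) (f g : ℍ → ℂ) (τ : ℍ) :
    ‖petersson k f g τ‖ ≤ ‖petersson k f f τ‖ + ‖petersson k g g τ‖ := by
  simp only [petersson, norm_mul, Complex.norm_conj]
  have h0 : 0 ≤ ‖((τ.im : ℂ)) ^ k‖ := norm_nonneg _
  have h1 : ‖f τ‖ * ‖g τ‖ ≤ ‖f τ‖ * ‖f τ‖ + ‖g τ‖ * ‖g τ‖ := by
    nlinarith [norm_nonneg (f τ), norm_nonneg (g τ), sq_nonneg (‖f τ‖ - ‖g τ‖)]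
  nlinarith

/-- Functions on which the Petersson product makes sense. -/
structure IsGood (k : ℤ) (f : ℍ → ℂ) : Prop where
  cont : Continuous f
  bdd : ∃ C, ∀ τ, ‖petersson k f f τ‖ ≤ C

lemma IsGood.petersson_bdd {k : ℤ} {f g : ℍ → ℂ} (hf : IsGood k f) (hg : IsGood k g) :
    ∃ C, ∀ τ, ‖petersson k f g τ‖ ≤ C := by
  obtain ⟨C, hC⟩ := hf.bdd
  obtain ⟨D, hD⟩ := hg.bdd
  exact ⟨C + D, fun τ => (norm_petersson_le k f g τ).trans (add_le_add (hC τ) (hD τ))⟩

lemma IsGood.slash {k : ℤ} {f : ℍ → ℂ} (hf : IsGood k f) (g : GL (Fin 2) ℝ)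
    (hg : 0 < g.det.val) : IsGood k (f ∣[k] g) := by
  constructor
  · have h1 : f ∣[k] g =
        fun τ ↦ f (g • τ) * ((|g.det.val| : ℝ) : ℂ) ^ (k - 1) * denom g τ ^ (-k) := by
      ext τ
      rw [slash_apply, σ_of_pos hg]
      rfl
    rw [h1]
    refine ((hf.cont.comp (continuous_const_smul g)).mul continuous_const).mul ?_
    refine Continuous.zpow₀ ?_ _ (fun τ => Or.inl (denom_ne_zero g τ))
    unfold denom
    fun_prop
  · obtain ⟨C, hC⟩ := hf.bdd
    refine ⟨‖((g.det.val : ℝ) : ℂ) ^ (k - 2)‖ * C, fun τ => ?_⟩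
    rw [petersson_slash_pos k f f g hg, norm_mul]
    exact mul_le_mul_of_nonneg_left (hC _) (norm_nonneg _)

lemma IsGood.measurable {k : ℤ} {f g : ℍ → ℂ} (hf : IsGood k f) (hg : IsGood k g) :
    Measurable (petersson k f g) :=
  (petersson_continuous k hf.cont hg.cont).measurable

lemma isGood_cuspForm {Γ : Subgroup (GL (Fin 2) ℝ)} [Γ.IsArithmetic] {k : ℤ}
    (f : CuspForm Γ k) : IsGood k f :=
  ⟨(CuspFormClass.holo f).continuous, CuspFormClass.petersson_bounded_left k Γ f f⟩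

/-! ### the mean of Petersson integrands -/

lemma integrable_wmeas {H : Subgroup (GL (Fin 2) ℝ)} {w : ℍ → ℝ≥0∞}
    (hw : IsFinWeight volume H w) {k : ℤ} {f g : ℍ → ℂ} (hf : IsGood k f) (hg : IsGood k g) :
    Integrable (petersson k f g) (wmeas volume w) := by
  have := isProbabilityMeasure_wmeas hw
  obtain ⟨C, hC⟩ := hf.petersson_bdd hg
  exact Integrable.of_bound (hf.measurable hg).aestronglyMeasurable C
    (Filter.Eventually.of_forall hC)

/-- The normalised Petersson pairing computed on the group `H`. -/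
noncomputable def pp (H : Subgroup (GL (Fin 2) ℝ)) (k : ℤ) (f g : ℍ → ℂ) : ℂ :=
  gmean (volume : Measure ℍ) H (petersson k f g)

lemma petersson_add_left (k : ℤ) (f₁ f₂ g : ℍ → ℂ) :
    petersson k (f₁ + f₂) g = petersson k f₁ g + petersson k f₂ g := by
  ext τ; simp [petersson, add_mul]

lemma petersson_add_right (k : ℤ) (f g₁ g₂ : ℍ → ℂ) :
    petersson k f (g₁ + g₂) = petersson k f g₁ + petersson k f g₂ := by
  ext τ; simp [petersson, mul_add, add_mul]

lemma petersson_smul_left (k : ℤ) (c : ℂ) (f g : ℍ → ℂ) :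
    petersson k (c • f) g = (starRingEnd ℂ c) • petersson k f g := by
  ext τ; simp [petersson, mul_assoc]

lemma petersson_smul_right (k : ℤ) (c : ℂ) (f g : ℍ → ℂ) :
    petersson k f (c • g) = c • petersson k f g := by
  ext τ; simp [petersson]; ring

section pp

variable {H : Subgroup (GL (Fin 2) ℝ)} {k : ℤ}

lemma pp_add_left (hH : HasFinWeight (volume : Measure ℍ) H) {f₁ f₂ g : ℍ → ℂ}
    (h₁ : IsGood k f₁) (h₂ : IsGood k f₂) (hg : IsGood k g) :
    pp H k (f₁ + f₂) g = pp H k f₁ g + pp H k f₂ g := by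
  unfold pp
  rw [gmean_eq hH, gmean_eq hH, gmean_eq hH, petersson_add_left]
  exact integral_add (integrable_wmeas hH.choose_spec h₁ hg)
    (integrable_wmeas hH.choose_spec h₂ hg)

lemma pp_add_right (hH : HasFinWeight (volume : Measure ℍ) H) {f g₁ g₂ : ℍ → ℂ}
    (hf : IsGood k f) (h₁ : IsGood k g₁) (h₂ : IsGood k g₂) :
    pp H k f (g₁ + g₂) = pp H k f g₁ + pp H k f g₂ := by
  unfold pp
  rw [gmean_eq hH, gmean_eq hH, gmean_eq hH, petersson_add_right]
  exact integral_add (integrable_wmeas hH.choose_spec hf h₁)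
    (integrable_wmeas hH.choose_spec hf h₂)

lemma pp_smul_left (hH : HasFinWeight (volume : Measure ℍ) H) (c : ℂ) (f g : ℍ → ℂ) :
    pp H k (c • f) g = (starRingEnd ℂ c) * pp H k f g := by
  unfold pp
  rw [gmean_eq hH, gmean_eq hH, petersson_smul_left]
  exact integral_const_mul _ _

lemma pp_smul_right (hH : HasFinWeight (volume : Measure ℍ) H) (c : ℂ) (f g : ℍ → ℂ) :
    pp H k f (c • g) = c * pp H k f g := by
  unfold pp
  rw [gmean_eq hH, gmean_eq hH, petersson_smul_right]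
  exact integral_const_mul _ _

lemma pp_symm (hH : HasFinWeight (volume : Measure ℍ) H) (f g : ℍ → ℂ) :
    pp H k g f = starRingEnd ℂ (pp H k f g) := by
  unfold pp
  rw [gmean_eq hH, gmean_eq hH, ← integral_conj]
  refine integral_congr_ae (Filter.Eventually.of_forall fun τ => ?_)
  exact petersson_symm k f g τ

lemma IsGood.add {f₁ f₂ : ℍ → ℂ}
    (h₁ : IsGood k f₁) (h₂ : IsGood k f₂) : IsGood k (f₁ + f₂) := by
  refine ⟨h₁.cont.add h₂.cont, ?_⟩
  obtain ⟨A, hA⟩ := h₁.bdd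
  obtain ⟨B, hB⟩ := h₂.bdd
  obtain ⟨C, hC⟩ := h₁.petersson_bdd h₂
  obtain ⟨D, hD⟩ := h₂.petersson_bdd h₁
  refine ⟨(A + D) + (C + B), fun τ => ?_⟩
  rw [petersson_add_right, petersson_add_left, petersson_add_left]
  simp only [Pi.add_apply]
  refine (norm_add_le _ _).trans (add_le_add ?_ ?_)
  · exact (norm_add_le _ _).trans (add_le_add (hA τ) (hD τ))
  · exact (norm_add_le _ _).trans (add_le_add (hC τ) (hB τ))

lemma IsGood.zero : IsGood k (0 : ℍ → ℂ) :=
  ⟨continuous_const, 0, fun τ => by simp [petersson]⟩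

lemma IsGood.sum {ι : Type*} (s : Finset ι) {f : ι → ℍ → ℂ} (h : ∀ i ∈ s, IsGood k (f i)) :
    IsGood k (∑ i ∈ s, f i) := by
  classical
  induction s using Finset.induction_on with
  | empty => simpa using IsGood.zero
  | insert i s hi ih =>
    rw [Finset.sum_insert hi]
    exact (h i (Finset.mem_insert_self _ _)).add
      (ih fun j hj => h j (Finset.mem_insert_of_mem hj))

lemma pp_sum_left (hH : HasFinWeight (volume : Measure ℍ) H) {ι : Type*} (s : Finset ι)
    {f : ι → ℍ → ℂ} {g : ℍ → ℂ} (h : ∀ i ∈ s, IsGood k (f i)) (hg : IsGood k g) :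
    pp H k (∑ i ∈ s, f i) g = ∑ i ∈ s, pp H k (f i) g := by
  classical
  induction s using Finset.induction_on with
  | empty =>
    have := pp_smul_left (k := k) hH 0 0 g
    simpa using this
  | insert i s hi ih =>
    rw [Finset.sum_insert hi, Finset.sum_insert hi, pp_add_left hH
      (h i (Finset.mem_insert_self _ _)) (IsGood.sum s fun j hj => h j (Finset.mem_insert_of_mem hj))
      hg, ih fun j hj => h j (Finset.mem_insert_of_mem hj)]

/-- positivity -/
lemma pp_self_nonneg (hH : HasFinWeight (volume : Measure ℍ) H) (f : ℍ → ℂ) :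
    ∃ r : ℝ, 0 ≤ r ∧ pp H k f f = r := by
  unfold pp
  rw [gmean_eq hH]
  have h1 : petersson k f f = fun τ => ((‖f τ‖ ^ 2 * τ.im ^ k : ℝ) : ℂ) := by
    ext τ
    simp only [petersson]
    rw [← Complex.normSq_eq_conj_mul_self, Complex.normSq_eq_norm_sq]
    push_cast
    rfl
  rw [h1, integral_complex_ofReal]
  refine ⟨_, integral_nonneg fun τ => ?_, rfl⟩
  have := τ.im_pos
  positivity

lemma eq_zero_of_pp_self (hH : HasFinWeight (volume : Measure ℍ) H) [Countable H] {f : ℍ → ℂ}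
    (hf : IsGood k f) (hinv : ∀ h ∈ H, ∀ τ, petersson k f f (h • τ) = petersson k f f τ)
    (h0 : pp H k f f = 0) : f = 0 := by
  unfold pp at h0
  rw [gmean_eq hH] at h0
  have hw := hH.choose_spec
  set w := hH.choose with hwdef
  have h1 : petersson k f f = fun τ => ((‖f τ‖ ^ 2 * τ.im ^ k : ℝ) : ℂ) := by
    ext τ
    simp only [petersson]
    rw [← Complex.normSq_eq_conj_mul_self, Complex.normSq_eq_norm_sq]
    push_cast
    rfl
  set F : ℍ → ℝ := fun τ => ‖f τ‖ ^ 2 * τ.im ^ k with hF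
  have hFnn : ∀ τ, 0 ≤ F τ := fun τ => by
    have := τ.im_pos
    simp only [hF]; positivity
  have hFint : Integrable F (wmeas volume w) := by
    have := (integrable_wmeas hw hf hf).re
    refine this.congr (Filter.Eventually.of_forall fun τ => ?_)
    simp only [h1, RCLike.re_to_complex, Complex.ofReal_re, hF]
  rw [h1, integral_complex_ofReal, Complex.ofReal_eq_zero,
    integral_eq_zero_iff_of_nonneg hFnn hFint] at h0
  have hFinv : ∀ h ∈ H, ∀ τ, F (h • τ) = F τ := by
    intro h hh τ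
    have := hinv h hh τ
    rw [h1] at this
    exact Complex.ofReal_injective this
  -- `F = 0` a.e. on the support of `w`
  have h2 : ∀ᵐ τ ∂(volume : Measure ℍ), w τ ≠ 0 → F τ = 0 := by
    have h3 : ∀ᵐ τ ∂((volume : Measure ℍ).withDensity w), F τ = 0 := by
      have hne : (∫⁻ x, w x)⁻¹ ≠ 0 := ENNReal.inv_ne_zero.2 hw.ne_top
      have : wmeas (volume : Measure ℍ) w = (∫⁻ x, w x)⁻¹ • (volume : Measure ℍ).withDensity w :=
        rfl
      rw [this] at h0
      exact (Measure.ae_ennreal_smul_measure_iff hne).1 h0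
    rw [ae_withDensity_iff hw.measurable] at h3
    exact h3
  have h4 : ∀ᵐ τ ∂(volume : Measure ℍ), ∀ h : H, w ((h : GL (Fin 2) ℝ) • τ) ≠ 0 → F τ = 0 := by
    rw [ae_all_iff]
    intro h
    have := (measurePreserving_smul (h : GL (Fin 2) ℝ)
      (volume : Measure ℍ)).quasiMeasurePreserving.tendsto_ae h2
    filter_upwards [this] with τ hτ hwτ
    rw [← hFinv h h.2 τ]
    exact hτ hwτ
  have h5 : ∀ᵐ τ ∂(volume : Measure ℍ), F τ = 0 := by
    filter_upwards [h4] with τ hτ
    by_contra hne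
    have h6 : ∀ h : H, w ((h : GL (Fin 2) ℝ) • τ) = 0 := fun h => by
      by_contra hh
      exact hne (hτ h hh)
    have h7 := hw.tsum_eq_one τ
    simp [h6] at h7
  have hFc : Continuous F := by
    have h8 : Continuous (petersson k f f) := petersson_continuous k hf.cont hf.cont
    have h9 : F = fun τ => (petersson k f f τ).re := by
      ext τ
      rw [h1]
      exact (Complex.ofReal_re _).symm
    rw [h9]
    exact Complex.continuous_re.comp h8
  have h10 : F = 0 := (Continuous.ae_eq_iff_eq volume hFc continuous_const).1 h5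
  ext τ
  have h11 := congrFun h10 τ
  simp only [hF, Pi.zero_apply, mul_eq_zero] at h11
  rcases h11 with h | h
  · simpa using h
  · exact absurd h (zpow_ne_zero k τ.im_ne_zero)

end pp

end Fermat.Agent.Petersson
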