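import Fermat.Agent.Petersson.Reduced
import Fermat.Prelude.Thm_ModularForm_sturm_bound_Gamma0
import Fermat.Prelude.Thm_CongruenceSubgroup_one_mem_strictPeriods_Gamma0

/-!
`S_k(Γ₀(N))` is spanned by simultaneous eigenvectors of the anemic Hecke algebra.
-/

set_option autoImplicit false

open MeasureTheory UpperHalfPlane Matrix.SpecialLinearGroup ModularForm
open scoped ENNReal Pointwise MatrixGroups ModularForm

namespace Fermat.Agent.Petersson

/-- finite-dimensionality (a local copy, from the Sturm bound). -/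
theorem finiteDimensional_cuspForm' (N : ℕ) [NeZero N] (k : ℤ) :
    FiniteDimensional ℂ (CuspForm (CongruenceSubgroup.Gamma0 N) k) := by
  let B : ℕ := (k * (CongruenceSubgroup.Gamma0 N).index).toNat / 12
  have han : ∀ f : CuspForm (CongruenceSubgroup.Gamma0 N) k,
      AnalyticAt ℂ (cuspFunction 1 f) 0 := fun f => by
    refine ModularFormClass.analyticAt_cuspFunction_zero f one_pos ?_
    exact CongruenceSubgroup.one_mem_strictPeriods_Gamma0 N
  let T : CuspForm (CongruenceSubgroup.Gamma0 N) k →ₗ[ℂ] (Fin (B + 1) → ℂ) :=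
    { toFun := fun f n => (qExpansion 1 (f : ℍ → ℂ)).coeff n
      map_add' := fun f g => by
        funext n
        have h : (⇑(f + g) : ℍ → ℂ) = ⇑f + ⇑g := rfl
        rw [h, UpperHalfPlane.qExpansion_add (han f) (han g)]
        simp
      map_smul' := fun c f => by
        funext n
        have h : (⇑(c • f) : ℍ → ℂ) = c • ⇑f := rfl
        rw [h, UpperHalfPlane.qExpansion_smul (han f)]
        simp }
  refine FiniteDimensional.of_injective T ?_
  refine (injective_iff_map_eq_zero _).mpr fun f hf => ?_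
  have h1 : (ModularFormClass.modularForm f :
      ModularForm (CongruenceSubgroup.Gamma0 N) k) = 0 := by
    refine ModularForm.sturm_bound_Gamma0 N _ fun n hn => ?_
    exact congrFun hf ⟨n, Nat.lt_succ_of_le hn⟩
  have h2 : (⇑f : ℍ → ℂ) = 0 := by
    have := congrArg (fun F : ModularForm (CongruenceSubgroup.Gamma0 N) k =>
      (⇑F : ℍ → ℂ)) h1
    exact this
  exact DFunLike.coe_injective h2

section

variable {N : ℕ} [NeZero N] {k : ℤ} {S : Set ℕ}

/-- For a self-adjoint operator, generalised eigenvectors are eigenvectors. -/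
lemma eigen_of_maxGen {t : Module.End ℂ (CuspForm (CongruenceSubgroup.Gamma0 N) k)}
    (ht : ∀ f g, petN (t f) g = petN f (t g)) {μ : ℂ}
    {f : CuspForm (CongruenceSubgroup.Gamma0 N) k}
    (h : f ∈ t.maxGenEigenspace μ) : t f = μ • f := by
  rw [Module.End.mem_maxGenEigenspace] at h
  obtain ⟨n, hn⟩ := h
  have key : ∀ n : ℕ, ∀ f : CuspForm (CongruenceSubgroup.Gamma0 N) k,
      ((t - algebraMap ℂ _ μ) ^ n) f = 0 → (t - algebraMap ℂ _ μ) f = 0 := by
    intro n
    induction n with
    | zero => intro f hf; simp only [pow_zero, Module.End.one_apply] at hf; rw [hf, map_zero]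
    | succ n ih =>
      intro f hf
      rw [pow_succ, Module.End.mul_apply] at hf
      exact eq_zero_of_sq ht (ih _ hf)
  have h1 := key n f hn
  rw [LinearMap.sub_apply, sub_eq_zero] at h1
  exact h1

/-- A nonzero simultaneous eigenvector determines a ring homomorphism. -/
lemma exists_ringHom_of_eigen {f : CuspForm (CongruenceSubgroup.Gamma0 N) k} (hf : f ≠ 0)
    {χ : CuspForm.heckeAlgebra N k S → ℂ}
    (h : ∀ t : CuspForm.heckeAlgebra N k S,
      (t : Module.End ℂ (CuspForm (CongruenceSubgroup.Gamma0 N) k)) f = χ t • f) :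
    ∃ χ' : CuspForm.heckeAlgebra N k S →+* ℂ, ⇑χ' = χ := by
  have hinj : ∀ a b : ℂ, a • f = b • f → a = b := fun a b hab => by
    have : (a - b) • f = 0 := by rw [sub_smul, hab, sub_self]
    rcases smul_eq_zero.1 this with h | h
    · exact sub_eq_zero.1 h
    · exact absurd h hf
  refine ⟨{ toFun := χ, map_one' := ?_, map_mul' := ?_, map_zero' := ?_, map_add' := ?_ }, rfl⟩
  · apply hinj
    rw [← h 1, one_smul]
    rfl
  · intro x y
    apply hinj
    rw [← h (x * y), Subalgebra.coe_mul, Module.End.mul_apply, h y, map_smul, h x, smul_smul,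
      mul_comm]
  · apply hinj
    rw [← h 0, zero_smul]
    rfl
  · intro x y
    apply hinj
    rw [← h (x + y), Subalgebra.coe_add, LinearMap.add_apply, h x, h y, add_smul]

/-- `S_k(Γ₀(N))` is spanned by simultaneous eigenvectors of the anemic Hecke algebra. -/
theorem span_eigenvectors (hS : ∀ q : ℕ, q.Prime → q ∣ N → q ∈ S) :
    Submodule.span ℂ {f : CuspForm (CongruenceSubgroup.Gamma0 N) k | f ≠ 0 ∧
      ∃ χ : CuspForm.heckeAlgebra N k S →+* ℂ, ∀ t : CuspForm.heckeAlgebra N k S,
        (t : Module.End ℂ (CuspForm (CongruenceSubgroup.Gamma0 N) k)) f = χ t • f} = ⊤ := by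
  have hfd := finiteDimensional_cuspForm' N k
  have hsa : ∀ (t : CuspForm.heckeAlgebra N k S) (f g : CuspForm (CongruenceSubgroup.Gamma0 N) k),
      petN ((t : Module.End ℂ _) f) g = petN f ((t : Module.End ℂ _) g) :=
    fun t => petN_heckeAlgebra hS t.2
  have h1 := Module.End.iSup_iInf_maxGenEigenspace_eq_top_of_iSup_maxGenEigenspace_eq_top_of_commute
    (K := ℂ) (M := CuspForm (CongruenceSubgroup.Gamma0 N) k)
    (fun t : CuspForm.heckeAlgebra N k S => (t : Module.End ℂ _))
    (fun s t _ => by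
      have := mul_comm s t
      exact congrArg Subtype.val this)
    (fun t => Module.End.iSup_maxGenEigenspace_eq_top _)
  rw [eq_top_iff, ← h1, iSup_le_iff]
  intro χ f hf
  by_cases hf0 : f = 0
  · rw [hf0]; exact Submodule.zero_mem _
  · refine Submodule.subset_span ⟨hf0, ?_⟩
    simp only [Submodule.mem_iInf] at hf
    have h2 : ∀ t : CuspForm.heckeAlgebra N k S,
        (t : Module.End ℂ (CuspForm (CongruenceSubgroup.Gamma0 N) k)) f = χ t • f :=
      fun t => eigen_of_maxGen (hsa t) (hf t)
    obtain ⟨χ', hχ'⟩ := exists_ringHom_of_eigen hf0 h2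
    exact ⟨χ', fun t => by rw [hχ']; exact h2 t⟩

/-- The character of an eigenvector is real valued. -/
theorem eigencharacter_real (hS : ∀ q : ℕ, q.Prime → q ∣ N → q ∈ S)
    {f : CuspForm (CongruenceSubgroup.Gamma0 N) k} (hf : f ≠ 0)
    {χ : CuspForm.heckeAlgebra N k S → ℂ}
    (h : ∀ t : CuspForm.heckeAlgebra N k S,
      (t : Module.End ℂ (CuspForm (CongruenceSubgroup.Gamma0 N) k)) f = χ t • f)
    (t : CuspForm.heckeAlgebra N k S) : starRingEnd ℂ (χ t) = χ t :=
  eigenvalue_real (fun f g => petN_heckeAlgebra hS t.2 f g) hf (h t)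

/-- Eigenvectors with different characters are orthogonal. -/
theorem petN_eq_zero_of_ne (hS : ∀ q : ℕ, q.Prime → q ∣ N → q ∈ S)
    {f g : CuspForm (CongruenceSubgroup.Gamma0 N) k}
    {t : Module.End ℂ (CuspForm (CongruenceSubgroup.Gamma0 N) k)}
    (ht : t ∈ CuspForm.heckeAlgebra N k S) {a b : ℂ}
    (hf : t f = a • f) (hg : t g = b • g) (hab : a ≠ b) : petN f g = 0 := by
  by_cases hf0 : f = 0
  · rw [hf0, petN_zero_left]
  have ha : starRingEnd ℂ a = a :=
    eigenvalue_real (fun f g => petN_heckeAlgebra hS ht f g) hf0 hf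
  have h1 := petN_heckeAlgebra hS ht f g
  rw [hf, hg, petN_smul_left, petN_smul_right, ha] at h1
  have h2 : (a - b) * petN f g = 0 := by rw [sub_mul, h1, sub_self]
  rcases mul_eq_zero.1 h2 with h | h
  · exact absurd (sub_eq_zero.1 h) hab
  · exact h

end

end Fermat.Agent.Petersson
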