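import Fermat.Agent.Petersson.Adjoint

/-!
Self-adjointness of `T_ℓ`, `ℓ ∤ N`, for the Petersson pairing.
-/

set_option autoImplicit false

open MeasureTheory UpperHalfPlane Matrix.SpecialLinearGroup ModularForm
open scoped ENNReal Pointwise MatrixGroups ModularForm

namespace Fermat.Agent.Petersson

/-! ### matrix identities -/

section matrices

variable {ℓ : ℕ} (hℓ : ℓ ≠ 0)
include hℓ

lemma exists_diag_mul (β : SL(2, ℤ)) (e : ℤ) (he : β 0 1 = ℓ * e) :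
    ∃ β' : SL(2, ℤ), β' 1 0 = ℓ * β 1 0 ∧
      heckeDiagMatrix ℓ * mapGL ℝ β' = mapGL ℝ β * heckeDiagMatrix ℓ := by
  have hdet := β.det_coe
  rw [Matrix.det_fin_two] at hdet
  refine ⟨⟨!![β 0 0, e; ℓ * β 1 0, β 1 1], ?_⟩, rfl, ?_⟩
  · rw [Matrix.det_fin_two_of]
    linear_combination hdet + (β 1 0) * he
  · ext i j
    fin_cases i <;> fin_cases j <;>
      simp [hℓ, Matrix.mul_apply, Fin.sum_univ_two]
    all_goals first
      | (have := congrArg (Int.cast : ℤ → ℝ) he; push_cast at this ⊢; linear_combination this)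
      | (have := congrArg (Int.cast : ℤ → ℝ) he; push_cast at this ⊢; linear_combination -this)
      | ring1

lemma exists_diag_mul' (β : SL(2, ℤ)) (e : ℤ) (he : β 1 0 = ℓ * e) :
    ∃ β' : SL(2, ℤ), β' 1 0 = e ∧
      heckeDiagMatrix ℓ * mapGL ℝ β = mapGL ℝ β' * heckeDiagMatrix ℓ := by
  have hdet := β.det_coe
  rw [Matrix.det_fin_two] at hdet
  refine ⟨⟨!![β 0 0, ℓ * β 0 1; e, β 1 1], ?_⟩, rfl, ?_⟩
  · rw [Matrix.det_fin_two_of]
    linear_combination hdet + (β 0 1) * he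
  · ext i j
    fin_cases i <;> fin_cases j <;>
      simp [hℓ, Matrix.mul_apply, Fin.sum_univ_two]
    all_goals first
      | (have := congrArg (Int.cast : ℤ → ℝ) he; push_cast at this ⊢; linear_combination this)
      | (have := congrArg (Int.cast : ℤ → ℝ) he; push_cast at this ⊢; linear_combination -this)
      | ring1

lemma exists_hecke_mul (β : SL(2, ℤ)) (e : ℤ) (he : β 0 1 = ℓ * e) :
    ∃ β' : SL(2, ℤ), β' 1 0 = ℓ * β 1 0 ∧
      heckeMatrix ℓ 0 * mapGL ℝ β = mapGL ℝ β' * heckeMatrix ℓ 0 := by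
  have hdet := β.det_coe
  rw [Matrix.det_fin_two] at hdet
  refine ⟨⟨!![β 0 0, e; ℓ * β 1 0, β 1 1], ?_⟩, rfl, ?_⟩
  · rw [Matrix.det_fin_two_of]
    linear_combination hdet + (β 1 0) * he
  · ext i j
    fin_cases i <;> fin_cases j <;>
      simp [hℓ, Matrix.mul_apply, Fin.sum_univ_two]
    all_goals first
      | (have := congrArg (Int.cast : ℤ → ℝ) he; push_cast at this ⊢; linear_combination this)
      | (have := congrArg (Int.cast : ℤ → ℝ) he; push_cast at this ⊢; linear_combination -this)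
      | ring1

lemma heckeMatrix_eq_mul_T (j : ℕ) :
    ∃ δ : SL(2, ℤ), δ 1 0 = 0 ∧ heckeMatrix ℓ j = heckeMatrix ℓ 0 * mapGL ℝ δ := by
  refine ⟨⟨!![1, j; 0, 1], by simp⟩, rfl, ?_⟩
  ext a b
  fin_cases a <;> fin_cases b <;> simp [hℓ, Matrix.mul_apply, Fin.sum_univ_two]

lemma heckeDiagMatrix_eq_mul {N : ℕ} (hN : Nat.Coprime ℓ N) :
    ∃ γ δ : SL(2, ℤ), (N : ℤ) ∣ γ 1 0 ∧ (N : ℤ) ∣ δ 1 0 ∧
      heckeDiagMatrix ℓ = mapGL ℝ γ * heckeMatrix ℓ 0 * mapGL ℝ δ := by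
  obtain ⟨x, y, hxy⟩ : ∃ x y : ℤ, x * ℓ - y * N = 1 := by
    have := (Nat.isCoprime_iff_coprime.2 hN)
    obtain ⟨a, b, hab⟩ := this
    exact ⟨a, -b, by linarith⟩
  refine ⟨⟨!![(ℓ : ℤ), -y; -N, x], ?_⟩, ⟨!![x * ℓ, y; N, 1], ?_⟩, ?_, ?_, ?_⟩
  · rw [Matrix.det_fin_two_of]; linarith
  · rw [Matrix.det_fin_two_of]; linarith
  · exact ⟨-1, by simp⟩
  · exact ⟨1, by simp⟩
  · have hxy' : (x : ℝ) * ℓ - y * N = 1 := by exact_mod_cast hxy
    ext a b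
    fin_cases a <;> fin_cases b <;> simp [hℓ, Matrix.mul_apply, Fin.sum_univ_two]
    · linear_combination (-(ℓ : ℝ)) * hxy'
    · ring
    · ring
    · linear_combination (-1 : ℝ) * hxy'

omit hℓ in
lemma det_heckeMatrix_val_pos (j : ℕ) : 0 < (heckeMatrix ℓ j).det.val := det_heckeMatrix_pos ℓ j

omit hℓ in
lemma det_heckeDiagMatrix_val_pos : 0 < (heckeDiagMatrix ℓ).det.val := det_heckeDiagMatrix_pos ℓ

lemma slash_slash_scalar (k : ℤ) (f : ℍ → ℂ) :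
    (f ∣[k] heckeMatrix ℓ 0) ∣[k] heckeDiagMatrix ℓ = ((ℓ : ℂ) ^ (k - 2)) • f := by
  ext τ
  rw [slash_heckeDiagMatrix_apply k hℓ, slash_heckeMatrix_apply k hℓ, Pi.smul_apply, smul_eq_mul]
  have h1 : heckeMatrix ℓ 0 • heckeDiagMatrix ℓ • τ = τ := by
    apply UpperHalfPlane.ext
    rw [coe_heckeMatrix_smul hℓ, coe_heckeDiagMatrix_smul hℓ]
    have : (ℓ : ℂ) ≠ 0 := by exact_mod_cast hℓ
    field_simp
    simp
  rw [h1, ← mul_assoc]
  congr 1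
  have h2 : (ℓ : ℂ) ≠ 0 := by exact_mod_cast hℓ
  rw [← zpow_neg_one, ← zpow_add₀ h2]
  congr 1
  ring

end matrices

/-! ### transformation rules for the pairing -/

lemma isGood_slash_SL {k : ℤ} {f : ℍ → ℂ} (hf : IsGood k f) (δ : SL(2, ℤ)) :
    IsGood k (f ∣[k] (mapGL ℝ δ)) :=
  hf.slash _ (by simp [-Matrix.GeneralLinearGroup.val_det_apply])

lemma pp_conj {H K : Subgroup (GL (Fin 2) ℝ)} [Countable K]
    (hH : HasFinWeight (volume : Measure ℍ) H) (α : GL (Fin 2) ℝ) (hα : 0 < α.det.val)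
    (hK : ∀ g, g ∈ K ↔ α * g * α⁻¹ ∈ H) {k : ℤ} {f g : ℍ → ℂ} (hf : IsGood k f) (hg : IsGood k g)
    (hinv : ∀ h ∈ H, ∀ τ, petersson k f g (h • τ) = petersson k f g τ) :
    pp K k (f ∣[k] α) (g ∣[k] α) = ((α.det.val : ℝ) : ℂ) ^ (k - 2) * pp H k f g := by
  have h1 : petersson k (f ∣[k] α) (g ∣[k] α) =
      fun τ => (((α.det.val : ℝ) : ℂ) ^ (k - 2)) • petersson k f g (α • τ) := by
    ext τ
    exact petersson_slash_pos k f g α hα τ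
  have hKw : HasFinWeight (volume : Measure ℍ) K := hH.conj α hK
  unfold pp
  rw [← gmean_conj hH α hK (hf.measurable hg) hinv, h1, gmean_eq hKw, gmean_eq hKw]
  exact integral_const_mul _ _

lemma pp_slash_SL {L : Subgroup SL(2, ℤ)} [L.FiniteIndex] [L.Normal] (δ : SL(2, ℤ)) {k : ℤ}
    {f g : ℍ → ℂ} (hf : IsGood k f) (hg : IsGood k g)
    (hinv : ∀ h ∈ (L.map (mapGL ℝ) : Subgroup (GL (Fin 2) ℝ)), ∀ τ,
      petersson k f g (h • τ) = petersson k f g τ) :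
    pp (L.map (mapGL ℝ)) k (f ∣[k] (mapGL ℝ δ)) (g ∣[k] (mapGL ℝ δ)) =
      pp (L.map (mapGL ℝ)) k f g := by
  have hinj : Function.Injective (mapGL ℝ : SL(2, ℤ) →* GL (Fin 2) ℝ) := mapGL_injective
  rw [pp_conj (H := L.map (mapGL ℝ)) (K := L.map (mapGL ℝ)) (hasFinWeight_map L)
    (mapGL ℝ δ) (by simp [-Matrix.GeneralLinearGroup.val_det_apply]) ?_ hf hg hinv]
  · simp [-Matrix.GeneralLinearGroup.val_det_apply]
  · intro g
    constructor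
    · rintro ⟨x, hx, rfl⟩
      refine ⟨δ * x * δ⁻¹, ‹L.Normal›.conj_mem x hx δ, ?_⟩
      simp
    · rintro ⟨x, hx, hxe⟩
      refine ⟨δ⁻¹ * x * δ, ?_, ?_⟩
      · have := ‹L.Normal›.conj_mem x hx δ⁻¹
        simpa using this
      · rw [map_mul, map_mul, hxe, map_inv]
        group

section main

variable {N : ℕ} [NeZero N] {k : ℤ} {ℓ : ℕ}

/-- invariance under `Γ₀(N)` -/
def Inv (N : ℕ) (k : ℤ) (f : ℍ → ℂ) : Prop :=
  ∀ γ ∈ CongruenceSubgroup.Gamma0 N, f ∣[k] (mapGL ℝ γ) = f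

omit [NeZero N] in
lemma petersson_inv_of_inv {L : Subgroup SL(2, ℤ)} {f g : ℍ → ℂ}
    (hf : ∀ γ ∈ L, f ∣[k] (mapGL ℝ γ) = f) (hg : ∀ γ ∈ L, g ∣[k] (mapGL ℝ γ) = g) :
    ∀ h ∈ (L.map (mapGL ℝ) : Subgroup (GL (Fin 2) ℝ)), ∀ τ,
      petersson k f g (h • τ) = petersson k f g τ := by
  rintro _ ⟨γ, hγ, rfl⟩ τ
  rw [← petersson_slash_SL', hf γ hγ, hg γ hγ]

omit [NeZero N] in
lemma gamma_le_gamma0 (M : ℕ) (hM : N ∣ M) :
    CongruenceSubgroup.Gamma M ≤ CongruenceSubgroup.Gamma0 N := by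
  intro γ hγ
  rw [CongruenceSubgroup.Gamma_mem] at hγ
  rw [CongruenceSubgroup.Gamma0_mem]
  have h1 : (M : ℤ) ∣ γ 1 0 := (ZMod.intCast_zmod_eq_zero_iff_dvd _ _).1 hγ.2.2.1
  exact (ZMod.intCast_zmod_eq_zero_iff_dvd _ _).2 ((Int.natCast_dvd_natCast.2 hM).trans h1)

omit [NeZero N] in
lemma slash_heckeMatrix_zero_inv (hℓ : ℓ ≠ 0) {f : ℍ → ℂ} (hf : Inv N k f) :
    ∀ γ ∈ CongruenceSubgroup.Gamma (ℓ * N),
      (f ∣[k] heckeMatrix ℓ 0) ∣[k] (mapGL ℝ γ) = f ∣[k] heckeMatrix ℓ 0 := by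
  intro γ hγ
  rw [CongruenceSubgroup.Gamma_mem] at hγ
  have h1 : ((ℓ * N : ℕ) : ℤ) ∣ γ 0 1 := (ZMod.intCast_zmod_eq_zero_iff_dvd _ _).1 hγ.2.1
  have h2 : ((ℓ * N : ℕ) : ℤ) ∣ γ 1 0 := (ZMod.intCast_zmod_eq_zero_iff_dvd _ _).1 hγ.2.2.1
  obtain ⟨e, he⟩ := h1
  obtain ⟨β', hβ', hmul⟩ := exists_hecke_mul hℓ γ (N * e) (by rw [he]; push_cast; ring)
  rw [← SlashAction.slash_mul, hmul, SlashAction.slash_mul, hf β' ?_]
  rw [CongruenceSubgroup.Gamma0_mem, ZMod.intCast_zmod_eq_zero_iff_dvd, hβ']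
  exact Dvd.dvd.mul_left ((Int.natCast_dvd_natCast.2 (Nat.dvd_mul_left N ℓ)).trans h2) _

omit [NeZero N] in
lemma slash_heckeDiagMatrix_inv (hℓ : ℓ ≠ 0) {f : ℍ → ℂ} (hf : Inv N k f) :
    ∀ γ ∈ CongruenceSubgroup.Gamma0 (ℓ * N),
      (f ∣[k] heckeDiagMatrix ℓ) ∣[k] (mapGL ℝ γ) = f ∣[k] heckeDiagMatrix ℓ := by
  intro γ hγ
  rw [CongruenceSubgroup.Gamma0_mem, ZMod.intCast_zmod_eq_zero_iff_dvd] at hγ
  obtain ⟨e, he⟩ := hγ
  obtain ⟨β', hβ', hmul⟩ := exists_diag_mul' hℓ γ (N * e) (by rw [he]; push_cast; ring)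
  rw [← SlashAction.slash_mul, hmul, SlashAction.slash_mul, hf β' ?_]
  rw [CongruenceSubgroup.Gamma0_mem, ZMod.intCast_zmod_eq_zero_iff_dvd, hβ']
  exact Dvd.intro _ rfl

lemma pp_heckeT_left (hℓ : ℓ ≠ 0) (hN : Nat.Coprime ℓ N) {f g : ℍ → ℂ}
    (hf : IsGood k f) (hg : IsGood k g) (hfi : Inv N k f) (hgi : Inv N k g) :
    pp ((CongruenceSubgroup.Gamma (ℓ * N)).map (mapGL ℝ)) k (heckeT k ℓ f) g =
      (ℓ + 1) * pp ((CongruenceSubgroup.Gamma (ℓ * N)).map (mapGL ℝ)) k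
        (f ∣[k] heckeMatrix ℓ 0) g := by
  have : NeZero (ℓ * N) := ⟨mul_ne_zero hℓ (NeZero.ne N)⟩
  have hnorm : (CongruenceSubgroup.Gamma (ℓ * N)).Normal := CongruenceSubgroup.Gamma_normal _
  have hw := hasFinWeight_map (CongruenceSubgroup.Gamma (ℓ * N))
  have h0 := hf.slash (heckeMatrix ℓ 0) (det_heckeMatrix_val_pos 0)
  have hg' : ∀ γ ∈ CongruenceSubgroup.Gamma (ℓ * N), g ∣[k] (mapGL ℝ γ) = g := fun γ hγ =>
    hgi γ (gamma_le_gamma0 _ (Nat.dvd_mul_left N ℓ) hγ)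
  have hinv := petersson_inv_of_inv (k := k) (slash_heckeMatrix_zero_inv hℓ hfi) hg'
  have hj : ∀ j : ℕ, pp ((CongruenceSubgroup.Gamma (ℓ * N)).map (mapGL ℝ)) k
      (f ∣[k] heckeMatrix ℓ j) g = pp ((CongruenceSubgroup.Gamma (ℓ * N)).map (mapGL ℝ)) k
        (f ∣[k] heckeMatrix ℓ 0) g := by
    intro j
    obtain ⟨δ, hδ, hmul⟩ := heckeMatrix_eq_mul_T hℓ j
    have hgδ : g ∣[k] (mapGL ℝ δ) = g := hgi δ (by rw [CongruenceSubgroup.Gamma0_mem, hδ]; simp)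
    rw [hmul, SlashAction.slash_mul]
    conv_lhs => rw [← hgδ]
    exact pp_slash_SL δ h0 hg hinv
  have hinf : pp ((CongruenceSubgroup.Gamma (ℓ * N)).map (mapGL ℝ)) k
      (f ∣[k] heckeDiagMatrix ℓ) g = pp ((CongruenceSubgroup.Gamma (ℓ * N)).map (mapGL ℝ)) k
        (f ∣[k] heckeMatrix ℓ 0) g := by
    obtain ⟨γ, δ, hγ, hδ, hmul⟩ := heckeDiagMatrix_eq_mul hℓ hN
    have hgδ : g ∣[k] (mapGL ℝ δ) = g := hgi δ (by
      rw [CongruenceSubgroup.Gamma0_mem, ZMod.intCast_zmod_eq_zero_iff_dvd]; exact hδ)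
    have hfγ : f ∣[k] (mapGL ℝ γ) = f := hfi γ (by
      rw [CongruenceSubgroup.Gamma0_mem, ZMod.intCast_zmod_eq_zero_iff_dvd]; exact hγ)
    rw [hmul, SlashAction.slash_mul, SlashAction.slash_mul, hfγ]
    conv_lhs => rw [← hgδ]
    exact pp_slash_SL δ h0 hg hinv
  rw [heckeT_def, pp_add_left hw (IsGood.sum _ fun j _ =>
      hf.slash _ (det_heckeMatrix_val_pos j)) (hf.slash _ (det_heckeDiagMatrix_val_pos)) hg,
    pp_sum_left hw _ (fun j _ => hf.slash _ (det_heckeMatrix_val_pos j)) hg, hinf]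
  simp only [hj, Finset.sum_const, Finset.card_range, nsmul_eq_mul]
  ring

lemma pp_diag (hℓ : ℓ ≠ 0) {f g : ℍ → ℂ}
    (hf : IsGood k f) (hg : IsGood k g) (hfi : Inv N k f) (hgi : Inv N k g) :
    pp ((CongruenceSubgroup.Gamma (ℓ * N)).map (mapGL ℝ)) k (f ∣[k] heckeMatrix ℓ 0) g =
      pp ((CongruenceSubgroup.Gamma (ℓ * N)).map (mapGL ℝ)) k f (g ∣[k] heckeDiagMatrix ℓ) := by
  have : NeZero (ℓ * N) := ⟨mul_ne_zero hℓ (NeZero.ne N)⟩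
  set L : Subgroup (GL (Fin 2) ℝ) := (CongruenceSubgroup.Gamma (ℓ * N)).map (mapGL ℝ) with hL
  set M : Subgroup (GL (Fin 2) ℝ) := (CongruenceSubgroup.Gamma0 (ℓ * N)).map (mapGL ℝ) with hM
  set L' : Subgroup (GL (Fin 2) ℝ) := L.comap (MulAut.conj (heckeDiagMatrix ℓ)).toMonoidHom
    with hL'
  have hmem : ∀ g, g ∈ L' ↔ heckeDiagMatrix ℓ * g * (heckeDiagMatrix ℓ)⁻¹ ∈ L := by
    intro g
    rw [hL', Subgroup.mem_comap]
    rfl
  have hL'M : L' ≤ M := by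
    intro x hx
    rw [hmem] at hx
    obtain ⟨β, hβ, hβe⟩ := hx
    have hβ0 := hβ
    rw [SetLike.mem_coe, CongruenceSubgroup.Gamma_mem] at hβ0
    have h1 : ((ℓ * N : ℕ) : ℤ) ∣ β 0 1 := (ZMod.intCast_zmod_eq_zero_iff_dvd _ _).1 hβ0.2.1
    have h2 : ((ℓ * N : ℕ) : ℤ) ∣ β 1 0 := (ZMod.intCast_zmod_eq_zero_iff_dvd _ _).1 hβ0.2.2.1
    obtain ⟨e, he⟩ := h1
    obtain ⟨β', hβ', hmul⟩ := exists_diag_mul hℓ β (N * e) (by rw [he]; push_cast; ring)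
    refine ⟨β', ?_, ?_⟩
    · rw [SetLike.mem_coe, CongruenceSubgroup.Gamma0_mem, ZMod.intCast_zmod_eq_zero_iff_dvd, hβ']
      exact Dvd.dvd.mul_left h2 _
    · have h3 : heckeDiagMatrix ℓ * mapGL ℝ β' = heckeDiagMatrix ℓ * x := by
        rw [hmul, hβe]; group
      exact mul_left_cancel h3
  have hLM : L ≤ M := Subgroup.map_mono (gamma_le_gamma0 _ (dvd_refl _))
  have : Countable L' := (Subgroup.inclusion_injective hL'M).countable
  have hwL : HasFinWeight (volume : Measure ℍ) L := hasFinWeight_map _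
  have hwM : HasFinWeight (volume : Measure ℍ) M := hasFinWeight_map _
  have hwL' : HasFinWeight (volume : Measure ℍ) L' := hwL.conj _ hmem
  have h0 := hf.slash (heckeMatrix ℓ 0) (det_heckeMatrix_val_pos 0)
  have hg' : ∀ γ ∈ CongruenceSubgroup.Gamma (ℓ * N), g ∣[k] (mapGL ℝ γ) = g := fun γ hγ =>
    hgi γ (gamma_le_gamma0 _ (Nat.dvd_mul_left N ℓ) hγ)
  have hinv := petersson_inv_of_inv (k := k) (slash_heckeMatrix_zero_inv hℓ hfi) hg'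
  -- step 1: transport by the diagonal matrix
  have e1 := pp_conj hwL (heckeDiagMatrix ℓ) (det_heckeDiagMatrix_val_pos) hmem h0 hg hinv
  rw [slash_slash_scalar hℓ, pp_smul_left hwL', det_heckeDiagMatrix hℓ] at e1
  have hℓc : (ℓ : ℂ) ^ (k - 2) ≠ 0 := zpow_ne_zero _ (by exact_mod_cast hℓ)
  have e2 : starRingEnd ℂ ((ℓ : ℂ) ^ (k - 2)) = (ℓ : ℂ) ^ (k - 2) := by
    rw [map_zpow₀, Complex.conj_natCast]
  rw [e2, Complex.ofReal_natCast] at e1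
  have e3 := mul_left_cancel₀ hℓc e1
  rw [← e3]
  -- step 2: both groups are contained in `Γ₀(ℓN)`
  have hf'' : ∀ γ ∈ CongruenceSubgroup.Gamma0 (ℓ * N), f ∣[k] (mapGL ℝ γ) = f := by
    intro γ hγ
    refine hfi γ ?_
    rw [CongruenceSubgroup.Gamma0_mem, ZMod.intCast_zmod_eq_zero_iff_dvd] at hγ ⊢
    exact (Int.natCast_dvd_natCast.2 (Nat.dvd_mul_left N ℓ)).trans hγ
  have hinvM := petersson_inv_of_inv (k := k) hf'' (slash_heckeDiagMatrix_inv hℓ hgi)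
  have hmeas : Measurable (petersson k f (g ∣[k] heckeDiagMatrix ℓ)) :=
    hf.measurable (hg.slash _ (det_heckeDiagMatrix_val_pos))
  unfold pp
  rw [gmean_eq_of_le hL'M hwM hwL' hmeas hinvM, gmean_eq_of_le hLM hwM hwL hmeas hinvM]

lemma pp_heckeT (hℓ : ℓ ≠ 0) (hN : Nat.Coprime ℓ N) {f g : ℍ → ℂ}
    (hf : IsGood k f) (hg : IsGood k g) (hfi : Inv N k f) (hgi : Inv N k g) :
    pp ((CongruenceSubgroup.Gamma (ℓ * N)).map (mapGL ℝ)) k (heckeT k ℓ f) g =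
      pp ((CongruenceSubgroup.Gamma (ℓ * N)).map (mapGL ℝ)) k f (heckeT k ℓ g) := by
  have : NeZero (ℓ * N) := ⟨mul_ne_zero hℓ (NeZero.ne N)⟩
  have hw := hasFinWeight_map (CongruenceSubgroup.Gamma (ℓ * N))
  rw [pp_heckeT_left hℓ hN hf hg hfi hgi, pp_symm hw (heckeT k ℓ g) f,
    pp_heckeT_left hℓ hN hg hf hgi hfi, map_mul, ← pp_symm hw]
  have hnorm : (CongruenceSubgroup.Gamma (ℓ * N)).Normal := CongruenceSubgroup.Gamma_normal _
  have h0 := hg.slash (heckeMatrix ℓ 0) (det_heckeMatrix_val_pos 0)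
  have hf' : ∀ γ ∈ CongruenceSubgroup.Gamma (ℓ * N), f ∣[k] (mapGL ℝ γ) = f := fun γ hγ =>
    hfi γ (gamma_le_gamma0 _ (Nat.dvd_mul_left N ℓ) hγ)
  have hinv := petersson_inv_of_inv (k := k) hf' (slash_heckeMatrix_zero_inv hℓ hgi)
  have hinf : pp ((CongruenceSubgroup.Gamma (ℓ * N)).map (mapGL ℝ)) k f
      (g ∣[k] heckeDiagMatrix ℓ) = pp ((CongruenceSubgroup.Gamma (ℓ * N)).map (mapGL ℝ)) k
        f (g ∣[k] heckeMatrix ℓ 0) := by
    obtain ⟨γ, δ, hγ, hδ, hmul⟩ := heckeDiagMatrix_eq_mul hℓ hN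
    have hfδ : f ∣[k] (mapGL ℝ δ) = f := hfi δ (by
      rw [CongruenceSubgroup.Gamma0_mem, ZMod.intCast_zmod_eq_zero_iff_dvd]; exact hδ)
    have hgγ : g ∣[k] (mapGL ℝ γ) = g := hgi γ (by
      rw [CongruenceSubgroup.Gamma0_mem, ZMod.intCast_zmod_eq_zero_iff_dvd]; exact hγ)
    rw [hmul, SlashAction.slash_mul, SlashAction.slash_mul, hgγ]
    conv_lhs => rw [← hfδ]
    exact pp_slash_SL δ hf h0 hinv
  rw [pp_diag hℓ hf hg hfi hgi, hinf]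
  simp

end main

end Fermat.Agent.Petersson
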