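import Mathlib

/-!
Abstract "weights" for a measure preserving group action: a replacement for fundamental domains
that does not need any almost-everywhere disjointness.
-/

set_option autoImplicit false

open MeasureTheory
open scoped ENNReal Pointwise

namespace Fermat.Agent.Petersson

/-- The decomposition of a group into left cosets, given by `(q, s) ↦ q.out * s`. -/
noncomputable def cosetEquiv {H : Type*} [Group H] (K : Subgroup H) : (H ⧸ K) × K ≃ H where
  toFun p := p.1.out * p.2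
  invFun h := (QuotientGroup.mk h, ⟨(QuotientGroup.mk h : H ⧸ K).out⁻¹ * h, by
    rw [← QuotientGroup.eq, QuotientGroup.out_eq']⟩)
  left_inv p := by
    obtain ⟨q, s⟩ := p
    have h1 : (QuotientGroup.mk (q.out * (s : H)) : H ⧸ K) = q := by
      rw [QuotientGroup.mk_mul_of_mem _ s.2, QuotientGroup.out_eq']
    ext
    · exact h1
    · simp [h1]
  right_inv h := by simp

section Abstract

variable {G X : Type*} [Group G] [MulAction G X] [MeasurableSpace X]

/-- `w` is a weight for the subgroup `H`: the sum of `w` over each `H`-orbit is `1`. -/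
structure IsWeight (H : Subgroup G) (w : X → ℝ≥0∞) : Prop where
  measurable : Measurable w
  tsum_eq_one : ∀ x, ∑' h : H, w ((h : G) • x) = 1

lemma IsWeight.tsum_inv {H : Subgroup G} {w : X → ℝ≥0∞} (hw : IsWeight H w) (x : X) :
    ∑' h : H, w ((h : G)⁻¹ • x) = 1 := by
  rw [← hw.tsum_eq_one x]
  exact (Equiv.inv H).tsum_eq (fun h : H => w ((h : G) • x))

/-- index of `H'` in `H` as an extended nonnegative real. -/
noncomputable def eindex (H' H : Subgroup G) : ℝ≥0∞ := ∑' _ : H ⧸ H'.subgroupOf H, (1 : ℝ≥0∞)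

lemma eindex_ne_zero (H' H : Subgroup G) : eindex H' H ≠ 0 := by
  unfold eindex
  intro h
  rw [ENNReal.tsum_eq_zero] at h
  exact one_ne_zero (h (QuotientGroup.mk 1))

lemma eindex_ne_top {H' H : Subgroup G} (h : H'.relIndex H ≠ 0) : eindex H' H ≠ ∞ := by
  unfold eindex
  have : (H'.subgroupOf H).FiniteIndex := ⟨h⟩
  have : Finite (H ⧸ H'.subgroupOf H) := Subgroup.finite_quotient_of_finiteIndex
  have := Fintype.ofFinite (H ⧸ H'.subgroupOf H)
  rw [tsum_fintype]
  simp

lemma tsum_coset {H H' : Subgroup G} (hle : H' ≤ H) {w' : X → ℝ≥0∞}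
    (hw' : IsWeight H' w') (x : X) : ∑' h : H, w' ((h : G)⁻¹ • x) = eindex H' H := by
  unfold eindex
  let e : H ≃ (H ⧸ H'.subgroupOf H) × H'.subgroupOf H := (cosetEquiv _).symm
  let e' : H'.subgroupOf H ≃ H' := (Subgroup.subgroupOfEquivOfLe hle).toEquiv
  rw [← e.symm.tsum_eq (fun h : H => w' ((h : G)⁻¹ • x)),
    ENNReal.tsum_prod (f := fun a b => w' (((e.symm (a, b) : H) : G)⁻¹ • x))]
  refine tsum_congr fun q => ?_
  have h2 := hw'.tsum_inv (((q.out : H) : G)⁻¹ • x)
  rw [← e'.tsum_eq] at h2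
  rw [← h2]
  refine tsum_congr fun s => ?_
  congr 1
  have h3 : (e.symm (q, s) : H) = q.out * s := rfl
  rw [h3, Subgroup.coe_mul, mul_inv_rev, mul_smul]
  rfl

variable (μ : Measure X) [MeasurableConstSMul G X] [SMulInvariantMeasure G X μ]

lemma lintegral_smul_eq (g : G) {f : X → ℝ≥0∞} (hf : Measurable f) :
    ∫⁻ x, f (g • x) ∂μ = ∫⁻ x, f x ∂μ :=
  (measurePreserving_smul g μ).lintegral_comp hf

lemma lintegral_weight_eq {H H' : Subgroup G} [Countable H] (hle : H' ≤ H) {w w' : X → ℝ≥0∞}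
    (hw : IsWeight H w) (hw' : IsWeight H' w') {F : X → ℝ≥0∞} (hF : Measurable F)
    (hFinv : ∀ h ∈ H, ∀ x, F (h • x) = F x) :
    ∫⁻ x, w' x * F x ∂μ = eindex H' H * ∫⁻ x, w x * F x ∂μ := by
  have hm : ∀ h : G, Measurable (fun x : X => h • x) := fun h => measurable_const_smul h
  have h1 : ∫⁻ x, w' x * F x ∂μ = ∑' h : H, ∫⁻ x, w ((h : G) • x) * (w' x * F x) ∂μ := by
    rw [← lintegral_tsum]
    · refine lintegral_congr fun x => ?_
      rw [ENNReal.tsum_mul_right, hw.tsum_eq_one, one_mul]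
    · intro h
      exact ((hw.measurable.comp (hm _)).mul (hw'.measurable.mul hF)).aemeasurable
  have h2 : ∀ h : H, ∫⁻ x, w ((h : G) • x) * (w' x * F x) ∂μ =
      ∫⁻ x, w' ((h : G)⁻¹ • x) * (w x * F x) ∂μ := by
    intro h
    rw [← lintegral_smul_eq μ ((h : G)⁻¹) (f := fun x => w ((h : G) • x) * (w' x * F x))
      ((hw.measurable.comp (hm _)).mul (hw'.measurable.mul hF))]
    refine lintegral_congr fun x => ?_
    simp only [smul_inv_smul]
    rw [hFinv _ (H.inv_mem h.2)]
    ring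
  rw [h1, tsum_congr h2, ← lintegral_tsum]
  · rw [← lintegral_const_mul (f := fun x => w x * F x) _ (hw.measurable.mul hF)]
    refine lintegral_congr fun x => ?_
    rw [ENNReal.tsum_mul_right, tsum_coset hle hw']
  · intro h
    exact ((hw'.measurable.comp (hm _)).mul (hw.measurable.mul hF)).aemeasurable

/-- A weight with finite nonzero total mass. -/
structure IsFinWeight (H : Subgroup G) (w : X → ℝ≥0∞) : Prop extends IsWeight H w where
  ne_zero : ∫⁻ x, w x ∂μ ≠ 0
  ne_top : ∫⁻ x, w x ∂μ ≠ ∞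

/-- The group has a weight of finite mass. -/
def HasFinWeight (H : Subgroup G) : Prop := ∃ w : X → ℝ≥0∞, IsFinWeight μ H w

/-- normalised measure attached to a weight -/
noncomputable def wmeas (w : X → ℝ≥0∞) : Measure X := (∫⁻ x, w x ∂μ)⁻¹ • μ.withDensity w

variable {μ}

omit [MeasurableConstSMul G X] [SMulInvariantMeasure G X μ] in
lemma isProbabilityMeasure_wmeas {H : Subgroup G} {w : X → ℝ≥0∞} (hw : IsFinWeight μ H w) :
    IsProbabilityMeasure (wmeas μ w) := by
  constructor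
  simp only [wmeas, Measure.smul_apply, withDensity_apply _ MeasurableSet.univ,
    Measure.restrict_univ, smul_eq_mul]
  exact ENNReal.inv_mul_cancel hw.ne_zero hw.ne_top

lemma lintegral_wmeas {w : X → ℝ≥0∞} (hw : Measurable w) (F : X → ℝ≥0∞) (hF : Measurable F) :
    ∫⁻ x, F x ∂(wmeas μ w) = (∫⁻ x, w x ∂μ)⁻¹ * ∫⁻ x, w x * F x ∂μ := by
  unfold wmeas
  rw [lintegral_smul_measure, lintegral_withDensity_eq_lintegral_mul _ hw hF]
  rfl

lemma lintegral_wmeas_eq {H H' : Subgroup G} [Countable H] (hle : H' ≤ H) {w w' : X → ℝ≥0∞}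
    (hw : IsFinWeight μ H w) (hw' : IsFinWeight μ H' w') {F : X → ℝ≥0∞} (hF : Measurable F)
    (hFinv : ∀ h ∈ H, ∀ x, F (h • x) = F x) :
    ∫⁻ x, F x ∂(wmeas μ w') = ∫⁻ x, F x ∂(wmeas μ w) := by
  rw [lintegral_wmeas hw.measurable F hF, lintegral_wmeas hw'.measurable F hF]
  have h1 := lintegral_weight_eq μ hle hw.toIsWeight hw'.toIsWeight hF hFinv
  have h2 := lintegral_weight_eq μ hle hw.toIsWeight hw'.toIsWeight (F := fun _ => 1)
    measurable_const (fun _ _ _ => rfl)
  simp only [mul_one] at h2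
  have hc0 := eindex_ne_zero H' H
  have hct : eindex H' H ≠ ∞ := by
    intro h
    rw [h, ENNReal.top_mul hw.ne_zero] at h2
    exact hw'.ne_top h2
  rw [h1, h2, ENNReal.mul_inv (Or.inl hc0) (Or.inl hct)]
  calc (eindex H' H)⁻¹ * (∫⁻ x, w x ∂μ)⁻¹ * (eindex H' H * ∫⁻ x, w x * F x ∂μ)
      = ((eindex H' H)⁻¹ * eindex H' H) * ((∫⁻ x, w x ∂μ)⁻¹ * ∫⁻ x, w x * F x ∂μ) := by ring
    _ = _ := by rw [ENNReal.inv_mul_cancel hc0 hct, one_mul]

lemma map_wmeas_eq {H H' : Subgroup G} [Countable H] (hle : H' ≤ H) {w w' : X → ℝ≥0∞}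
    (hw : IsFinWeight μ H w) (hw' : IsFinWeight μ H' w') {F : X → ℂ} (hF : Measurable F)
    (hFinv : ∀ h ∈ H, ∀ x, F (h • x) = F x) :
    Measure.map F (wmeas μ w') = Measure.map F (wmeas μ w) := by
  ext B hB
  rw [Measure.map_apply hF hB, Measure.map_apply hF hB]
  have hmB := hF hB
  have key := lintegral_wmeas_eq hle hw hw' (F := (F ⁻¹' B).indicator 1)
    (measurable_const.indicator hmB) (fun h hh x => by
      by_cases hx : F x ∈ B <;>
        simp [Set.indicator, Set.mem_preimage, hFinv h hh x, hx])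
  rwa [lintegral_indicator_one hmB, lintegral_indicator_one hmB] at key

lemma integral_wmeas_eq {H H' : Subgroup G} [Countable H] (hle : H' ≤ H) {w w' : X → ℝ≥0∞}
    (hw : IsFinWeight μ H w) (hw' : IsFinWeight μ H' w') {F : X → ℂ} (hF : Measurable F)
    (hFinv : ∀ h ∈ H, ∀ x, F (h • x) = F x) :
    ∫ x, F x ∂(wmeas μ w') = ∫ x, F x ∂(wmeas μ w) := by
  have h := map_wmeas_eq hle hw hw' hF hFinv
  have h1 : ∫ z, z ∂(Measure.map F (wmeas μ w')) = ∫ x, F x ∂(wmeas μ w') :=
    integral_map hF.aemeasurable aestronglyMeasurable_id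
  have h2 : ∫ z, z ∂(Measure.map F (wmeas μ w)) = ∫ x, F x ∂(wmeas μ w) :=
    integral_map hF.aemeasurable aestronglyMeasurable_id
  rw [← h1, ← h2, h]

/-! conjugation -/

lemma IsWeight.conj {H K : Subgroup G} {w : X → ℝ≥0∞} (hw : IsWeight H w) (α : G)
    (hK : ∀ g, g ∈ K ↔ α * g * α⁻¹ ∈ H) : IsWeight K (fun x => w (α • x)) := by
  refine ⟨hw.measurable.comp (measurable_const_smul α), fun x => ?_⟩
  rw [← hw.tsum_eq_one (α • x)]
  let e : K ≃ H :=
    { toFun := fun g => ⟨α * g * α⁻¹, (hK g).1 g.2⟩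
      invFun := fun h => ⟨α⁻¹ * h * α, (hK _).2 (by
        have : α * (α⁻¹ * (h : G) * α) * α⁻¹ = h := by group
        rw [this]; exact h.2)⟩
      left_inv := fun g => by ext; simp only; group
      right_inv := fun h => by ext; simp only; group }
  rw [← e.tsum_eq]
  refine tsum_congr fun g => ?_
  congr 1
  show α • (g : G) • x = (α * g * α⁻¹) • α • x
  simp only [← mul_smul]
  congr 1
  group

lemma IsFinWeight.conj {H K : Subgroup G} {w : X → ℝ≥0∞} (hw : IsFinWeight μ H w) (α : G)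
    (hK : ∀ g, g ∈ K ↔ α * g * α⁻¹ ∈ H) : IsFinWeight μ K (fun x => w (α • x)) := by
  refine ⟨hw.toIsWeight.conj α hK, ?_, ?_⟩
  · rw [lintegral_smul_eq μ α hw.measurable]; exact hw.ne_zero
  · rw [lintegral_smul_eq μ α hw.measurable]; exact hw.ne_top

lemma wmeas_conj {w : X → ℝ≥0∞} (hw : Measurable w) (α : G) :
    Measure.map (fun x : X => α • x) (wmeas μ (fun x => w (α • x))) = wmeas μ w := by
  have hm : Measurable (fun x : X => α • x) := measurable_const_smul α
  ext B hB
  rw [Measure.map_apply hm hB]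
  simp only [wmeas, Measure.smul_apply, withDensity_apply _ hB, withDensity_apply _ (hm hB),
    smul_eq_mul]
  rw [lintegral_smul_eq μ α hw]
  congr 1
  rw [← lintegral_indicator hB, ← lintegral_indicator (hm hB)]
  rw [← lintegral_smul_eq μ α (hw.indicator hB)]
  rfl

lemma integral_wmeas_conj {w : X → ℝ≥0∞} (hw : Measurable w) (α : G) {F : X → ℂ}
    (hF : Measurable F) :
    ∫ x, F (α • x) ∂(wmeas μ (fun x => w (α • x))) = ∫ x, F x ∂(wmeas μ w) := by
  have hm : Measurable (fun x : X => α • x) := measurable_const_smul α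
  rw [← wmeas_conj hw α, integral_map hm.aemeasurable hF.aestronglyMeasurable]

/-! existence for subgroups -/

lemma IsWeight.exists_subgroup {H H' : Subgroup G} [Countable H] (hle : H' ≤ H)
    {w : X → ℝ≥0∞} (hw : IsWeight H w) : ∃ w' : X → ℝ≥0∞, IsWeight H' w' := by
  let e : H ≃ (H ⧸ H'.subgroupOf H) × H'.subgroupOf H := (cosetEquiv _).symm
  let e' : H'.subgroupOf H ≃ H' := (Subgroup.subgroupOfEquivOfLe hle).toEquiv
  refine ⟨fun x => ∑' q : H ⧸ H'.subgroupOf H, w (((q.out : H) : G) • x), ?_, ?_⟩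
  · have : Countable (H ⧸ H'.subgroupOf H) := Quotient.countable
    exact Measurable.ennreal_tsum fun q => hw.measurable.comp (measurable_const_smul _)
  · intro x
    rw [ENNReal.tsum_comm, ← hw.tsum_eq_one x, ← e.symm.tsum_eq (fun h : H => w ((h : G) • x)),
      ENNReal.tsum_prod (f := fun a b => w (((e.symm (a, b) : H) : G) • x))]
    refine tsum_congr fun q => ?_
    rw [← e'.tsum_eq]
    refine tsum_congr fun s => ?_
    congr 1
    have h3 : (e.symm (q, s) : H) = q.out * s := rfl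
    rw [h3, Subgroup.coe_mul, mul_smul]
    rfl

lemma HasFinWeight.of_le {H H' : Subgroup G} [Countable H] (hle : H' ≤ H)
    (hidx : H'.relIndex H ≠ 0) (hH : HasFinWeight μ H) : HasFinWeight μ H' := by
  obtain ⟨w, hw⟩ := hH
  obtain ⟨w', hw'⟩ := hw.toIsWeight.exists_subgroup hle
  have h2 := lintegral_weight_eq μ hle hw.toIsWeight hw' (F := fun _ => 1)
    measurable_const (fun _ _ _ => rfl)
  simp only [mul_one] at h2
  refine ⟨w', hw', ?_, ?_⟩
  · rw [h2]; exact mul_ne_zero (eindex_ne_zero _ _) hw.ne_zero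
  · rw [h2]; exact ENNReal.mul_ne_top (eindex_ne_top hidx) hw.ne_top

lemma HasFinWeight.conj {H K : Subgroup G} (hH : HasFinWeight μ H) (α : G)
    (hK : ∀ g, g ∈ K ↔ α * g * α⁻¹ ∈ H) : HasFinWeight μ K := by
  obtain ⟨w, hw⟩ := hH
  exact ⟨_, hw.conj α hK⟩

/-! the mean -/

variable (μ) in
open Classical in
/-- The normalised integral of an `H`-invariant function. -/
noncomputable def gmean (H : Subgroup G) (F : X → ℂ) : ℂ :=
  if h : HasFinWeight μ H then ∫ x, F x ∂(wmeas μ h.choose) else 0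

omit [MeasurableConstSMul G X] [SMulInvariantMeasure G X μ] in
lemma gmean_eq {H : Subgroup G} (h : HasFinWeight μ H) (F : X → ℂ) :
    gmean μ H F = ∫ x, F x ∂(wmeas μ h.choose) := dif_pos h

lemma gmean_eq_of_isFinWeight {H : Subgroup G} [Countable H] {w : X → ℝ≥0∞}
    (hw : IsFinWeight μ H w) {F : X → ℂ} (hF : Measurable F)
    (hFinv : ∀ h ∈ H, ∀ x, F (h • x) = F x) :
    gmean μ H F = ∫ x, F x ∂(wmeas μ w) := by
  have h : HasFinWeight μ H := ⟨w, hw⟩
  rw [gmean_eq h]
  exact integral_wmeas_eq le_rfl hw h.choose_spec hF hFinv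

lemma gmean_eq_of_le {H H' : Subgroup G} [Countable H] (hle : H' ≤ H)
    (h : HasFinWeight μ H) (h' : HasFinWeight μ H')
    {F : X → ℂ} (hF : Measurable F) (hFinv : ∀ h ∈ H, ∀ x, F (h • x) = F x) :
    gmean μ H' F = gmean μ H F := by
  rw [gmean_eq h, gmean_eq h']
  exact integral_wmeas_eq hle h.choose_spec h'.choose_spec hF hFinv

lemma gmean_conj {H K : Subgroup G} [Countable K] (hH : HasFinWeight μ H) (α : G)
    (hK : ∀ g, g ∈ K ↔ α * g * α⁻¹ ∈ H) {F : X → ℂ} (hF : Measurable F)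
    (hFinv : ∀ h ∈ H, ∀ x, F (h • x) = F x) :
    gmean μ K (fun x => F (α • x)) = gmean μ H F := by
  have hw := hH.choose_spec
  rw [gmean_eq hH, ← integral_wmeas_conj hw.measurable α hF]
  refine gmean_eq_of_isFinWeight (hw.conj α hK) (hF.comp (measurable_const_smul α)) ?_
  intro k hk x
  have := hFinv _ ((hK k).1 hk) (α • x)
  rw [← this, ← mul_smul, ← mul_smul]
  congr 2
  group

end Abstract

end Fermat.Agent.Petersson
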